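import Mathlib

/-!
# T14 / SI local count, shape-independent core (helper12)

`R` a Dedekind domain, `P = v.asIdeal` a nonzero prime, `ζ ∈ R` a primitive `p`-th root of unity
(`p` prime), `e₁` the exact `P`-adic order of `ζ - 1`, `N = p * e₁ + 1`.
Then the elements `u` of `R ⧸ P ^ N` with `u ^ p = 1` are exactly the `η + x` with `η` a `p`-th root
of unity of `R` and `x ∈ P ^ (e₁ + 1)`, and there are `p * q ^ ((p - 1) * e₁)` of them
(`q = |R ⧸ P|`).
-/

set_option autoImplicit false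

open IsDedekindDomain HeightOneSpectrum Polynomial WithZero

namespace Fermat.Agent.S14_helper12

variable {R : Type*} [CommRing R] [IsDedekindDomain R] (v : HeightOneSpectrum R)

/-- product of elements of `P ^ k i` lies in `P ^ (∑ k i)`. -/
lemma prod_mem_pow_sum {ι : Type*} (s : Finset ι) (f : ι → R) (k : ι → ℕ)
    (h : ∀ i ∈ s, f i ∈ v.asIdeal ^ k i) :
    ∏ i ∈ s, f i ∈ v.asIdeal ^ (∑ i ∈ s, k i) := by
  classical
  induction s using Finset.induction_on with
  | empty => simp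
  | insert a s ha ih =>
    rw [Finset.prod_insert ha, Finset.sum_insert ha, pow_add]
    exact Ideal.mul_mem_mul (h a (Finset.mem_insert_self a s))
      (ih fun i hi => h i (Finset.mem_insert_of_mem hi))

/-- If `f i ∉ P ^ (e + 1)` then `exp (-e) ≤ v (f i)`. -/
lemma exp_le_intValuation_of_notMem {r : R} {e : ℕ} (h : r ∉ v.asIdeal ^ (e + 1)) :
    exp (-(e : ℤ)) ≤ v.intValuation r := by
  have hr : r ≠ 0 := by
    rintro rfl
    exact h (Ideal.zero_mem _)
  have h0 : v.intValuation r ≠ 0 := v.intValuation_ne_zero r hr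
  rw [← v.intValuation_le_pow_iff_mem, not_le, ← exp_log h0, exp_lt_exp] at h
  rw [← exp_log h0, exp_le_exp]
  push_cast at h
  omega

/-- Key lemma: if a product of `|s|` factors lies in `P ^ (|s| * e + 1)`, one factor lies in
`P ^ (e + 1)`. -/
lemma exists_mem_pow_of_prod_mem {ι : Type*} (s : Finset ι) (f : ι → R) (e : ℕ)
    (h : ∏ i ∈ s, f i ∈ v.asIdeal ^ (s.card * e + 1)) :
    ∃ i ∈ s, f i ∈ v.asIdeal ^ (e + 1) := by
  classical
  by_contra hcon
  push Not at hcon
  have key : ∀ t : Finset ι, t ⊆ s →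
      exp (-((t.card * e : ℕ) : ℤ)) ≤ v.intValuation (∏ i ∈ t, f i) := by
    intro t
    induction t using Finset.induction_on with
    | empty => intro _; simp
    | insert a t ha ih =>
      intro hts
      rw [Finset.prod_insert ha, Finset.card_insert_of_notMem ha, map_mul]
      have h1 := exp_le_intValuation_of_notMem v (hcon a (hts (Finset.mem_insert_self a t)))
      have h2 := ih (fun i hi => hts (Finset.mem_insert_of_mem hi))
      have : exp (-(((t.card + 1) * e : ℕ) : ℤ)) = exp (-(e : ℤ)) * exp (-((t.card * e : ℕ) : ℤ)) := by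
        rw [← exp_add]
        congr 1
        push_cast
        ring
      rw [this]
      exact mul_le_mul' h1 h2
  have h1 := key s (Finset.Subset.refl s)
  rw [← v.intValuation_le_pow_iff_mem] at h
  have := h1.trans h
  rw [exp_le_exp] at this
  push_cast at this
  omega

variable {p : ℕ} (hp : p.Prime) {ζ : R} (hζ : IsPrimitiveRoot ζ p)
include hp hζ

/-- `u ^ p - 1 = ∏ (u - η)` over the `p`-th roots of unity. -/
lemma pow_sub_one_eq_prod_roots (u : R) :
    u ^ p - 1 = ∏ η ∈ nthRootsFinset p (1 : R), (u - η) := by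
  have h := congrArg (Polynomial.eval u) (X_pow_sub_one_eq_prod hp.pos hζ)
  simpa [Polynomial.eval_prod] using h

/-- Distinct `p`-th roots of unity differ by an associate of `ζ - 1`. -/
lemma sub_mem_pow_iff {η₁ η₂ : R} (h₁ : η₁ ∈ nthRootsFinset p (1 : R))
    (h₂ : η₂ ∈ nthRootsFinset p (1 : R)) (hne : η₁ ≠ η₂) (k : ℕ) :
    η₁ - η₂ ∈ v.asIdeal ^ k ↔ ζ - 1 ∈ v.asIdeal ^ k := by
  obtain ⟨u, hu⟩ := hζ.nthRootsFinset_pairwise_associated_sub_one_sub_of_prime hp h₁ h₂ hne
  rw [← hu]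
  exact (Ideal.mul_unit_mem_iff_mem _ u.isUnit)

variable {e₁ : ℕ} (h1 : ζ - 1 ∈ v.asIdeal ^ e₁) (h2 : ζ - 1 ∉ v.asIdeal ^ (e₁ + 1))

include h1 in
/-- (⊇) `η + x` with `x ∈ P ^ (e₁ + 1)` is a `p`-th root of unity mod `P ^ (p e₁ + 1)`. -/
lemma add_pow_sub_one_mem {η x : R} (hη : η ∈ nthRootsFinset p (1 : R))
    (hx : x ∈ v.asIdeal ^ (e₁ + 1)) : (η + x) ^ p - 1 ∈ v.asIdeal ^ (p * e₁ + 1) := by
  classical
  rw [pow_sub_one_eq_prod_roots hp hζ]
  have hsum : ∑ η' ∈ nthRootsFinset p (1 : R), (if η' = η then e₁ + 1 else e₁) = p * e₁ + 1 := by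
    have : ∀ η' ∈ nthRootsFinset p (1 : R), (if η' = η then e₁ + 1 else e₁)
        = e₁ + (if η' = η then 1 else 0) := by
      intro η' _
      split_ifs <;> rfl
    rw [Finset.sum_congr rfl this, Finset.sum_add_distrib, Finset.sum_const,
      hζ.card_nthRootsFinset, Finset.sum_ite_eq' _ η, if_pos hη, smul_eq_mul]
  rw [← hsum]
  apply prod_mem_pow_sum
  intro η' hη'
  split_ifs with heq
  · subst heq
    simpa using hx
  · have : η + x - η' = (η - η') + x := by ring
    rw [this]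
    refine Ideal.add_mem _ ?_ (Ideal.pow_le_pow_right (Nat.le_succ e₁) hx)
    exact (sub_mem_pow_iff v hp hζ hη hη' (Ne.symm heq) e₁).mpr h1

/-- (⊆) a `p`-th root of unity mod `P ^ (p e₁ + 1)` is congruent mod `P ^ (e₁ + 1)` to a `p`-th root
of unity of `R`. -/
lemma exists_root_sub_mem {u : R} (hu : u ^ p - 1 ∈ v.asIdeal ^ (p * e₁ + 1)) :
    ∃ η ∈ nthRootsFinset p (1 : R), u - η ∈ v.asIdeal ^ (e₁ + 1) := by
  rw [pow_sub_one_eq_prod_roots hp hζ] at hu
  have hc : (nthRootsFinset p (1 : R)).card = p := hζ.card_nthRootsFinset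
  refine exists_mem_pow_of_prod_mem v _ _ e₁ ?_
  rw [hc]
  exact hu

include h2 in
lemma root_eq_of_sub_mem {η₁ η₂ : R} (h₁ : η₁ ∈ nthRootsFinset p (1 : R))
    (h₂ : η₂ ∈ nthRootsFinset p (1 : R)) (h : η₁ - η₂ ∈ v.asIdeal ^ (e₁ + 1)) : η₁ = η₂ := by
  by_contra hne
  exact h2 ((sub_mem_pow_iff v hp hζ h₁ h₂ hne (e₁ + 1)).mp h)


section Count

variable [Finite (R ⧸ v.asIdeal)]

omit hp hζ in
/-- `|P ^ a / P ^ (a + b)| = q ^ b`. -/
lemma card_map_mkQ_pow (a b : ℕ) :
    Nat.card (Submodule.map (v.asIdeal ^ (a + b)).mkQ (v.asIdeal ^ a)) =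
      Nat.card (R ⧸ v.asIdeal) ^ b := by
  have hle : v.asIdeal ^ (a + b) ≤ v.asIdeal ^ a := Ideal.pow_le_pow_right (Nat.le_add_right a b)
  have h := Submodule.card_quotient_mul_card_quotient (v.asIdeal ^ a) (v.asIdeal ^ (a + b)) hle
  have hq : ∀ i : ℕ, Nat.card (R ⧸ v.asIdeal ^ i) = Nat.card (R ⧸ v.asIdeal) ^ i := by
    intro i
    have := cardQuot_pow_of_prime (P := v.asIdeal) v.ne_bot (i := i)
    simpa [Submodule.cardQuot_apply] using this
  rw [hq a, hq (a + b), pow_add (Nat.card (R ⧸ v.asIdeal)) a b, mul_comm] at h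
  have hpos : 0 < Nat.card (R ⧸ v.asIdeal) ^ a := pow_pos Nat.card_pos a
  exact Nat.eq_of_mul_eq_mul_left hpos h

include h1 h2 in
/-- **Torsion count**: the number of `u ∈ R ⧸ P ^ (p e₁ + 1)` with `u ^ p = 1` is
`p * q ^ ((p - 1) e₁)`. -/
theorem card_pow_eq_one :
    Nat.card {u : R ⧸ v.asIdeal ^ (p * e₁ + 1) // u ^ p = 1} =
      p * Nat.card (R ⧸ v.asIdeal) ^ ((p - 1) * e₁) := by
  classical
  set N := p * e₁ + 1 with hN
  have hNeq : N = (e₁ + 1) + (p - 1) * e₁ := by
    have h3 : p - 1 + 1 = p := Nat.sub_add_cancel hp.pos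
    calc N = (p - 1 + 1) * e₁ + 1 := by rw [h3]
      _ = (e₁ + 1) + (p - 1) * e₁ := by ring
  let Kk := Submodule.map (v.asIdeal ^ N).mkQ (v.asIdeal ^ (e₁ + 1))
  let μ := {η : R // η ∈ nthRootsFinset p (1 : R)}
  have hmk : ∀ x : R, (v.asIdeal ^ N).mkQ x = Ideal.Quotient.mk (v.asIdeal ^ N) x := fun _ => rfl
  -- the map
  let φ : μ × Kk → {u : R ⧸ v.asIdeal ^ N // u ^ p = 1} := fun ηk =>
    ⟨Ideal.Quotient.mk (v.asIdeal ^ N) ηk.1.1 + ηk.2.1, by
      obtain ⟨x, hx, hxk⟩ := Submodule.mem_map.mp ηk.2.2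
      rw [← hxk, hmk, ← map_add, ← map_pow, ← map_one (Ideal.Quotient.mk (v.asIdeal ^ N)),
        Ideal.Quotient.eq]
      exact add_pow_sub_one_mem v hp hζ h1 ηk.1.2 hx⟩
  have hφ : Function.Bijective φ := by
    constructor
    · rintro ⟨⟨η, hη⟩, ⟨k, hk⟩⟩ ⟨⟨η', hη'⟩, ⟨k', hk'⟩⟩ h
      simp only [φ, Subtype.mk.injEq] at h
      obtain ⟨x, hx, hxk⟩ := Submodule.mem_map.mp hk
      obtain ⟨x', hx', hxk'⟩ := Submodule.mem_map.mp hk'
      have hηη : η = η' := by
        apply root_eq_of_sub_mem v hp hζ h2 hη hη'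
        have : Ideal.Quotient.mk (v.asIdeal ^ N) (η - η' - (x' - x)) = 0 := by
          rw [map_sub, map_sub, map_sub, ← hmk x, ← hmk x', hxk, hxk']
          linear_combination h
        rw [Ideal.Quotient.eq_zero_iff_mem] at this
        have hle : v.asIdeal ^ N ≤ v.asIdeal ^ (e₁ + 1) :=
          Ideal.pow_le_pow_right (by rw [hNeq]; exact Nat.le_add_right _ _)
        have h4 := Ideal.add_mem _ (hle this) (Ideal.sub_mem _ hx' hx)
        simpa using h4
      subst hηη
      have hkk : k = k' := add_left_cancel h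
      subst hkk
      rfl
    · rintro ⟨u, hu⟩
      obtain ⟨u, rfl⟩ := Ideal.Quotient.mk_surjective u
      rw [← map_pow, ← map_one (Ideal.Quotient.mk (v.asIdeal ^ N)), Ideal.Quotient.eq] at hu
      obtain ⟨η, hη, hmem⟩ := exists_root_sub_mem v hp hζ hu
      refine ⟨(⟨η, hη⟩, ⟨(v.asIdeal ^ N).mkQ (u - η), Submodule.mem_map_of_mem hmem⟩), ?_⟩
      simp only [φ, Subtype.mk.injEq, hmk]
      rw [← map_add]
      congr 1
      ring
  rw [← Nat.card_congr (Equiv.ofBijective φ hφ), Nat.card_prod]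
  congr 1
  · rw [Nat.card_eq_fintype_card, Fintype.card_coe, hζ.card_nthRootsFinset]
  · have := card_map_mkQ_pow v (e₁ + 1) ((p - 1) * e₁)
    rw [← hNeq] at this
    exact this

end Count

end Fermat.Agent.S14_helper12

namespace Fermat.Agent.S14_helper12

/-- In a finite commutative group, the index of the `n`-th powers equals the number of
`n`-torsion elements. -/
lemma index_range_powMonoidHom {G : Type*} [CommGroup G] [Finite G] (n : ℕ) :
    (powMonoidHom n : G →* G).range.index = Nat.card (powMonoidHom n : G →* G).ker := by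
  have h1 := Subgroup.card_mul_index (powMonoidHom n : G →* G).range
  have h2 := Subgroup.card_mul_index (powMonoidHom n : G →* G).ker
  rw [Subgroup.index_ker] at h2
  have hpos : 0 < Nat.card (powMonoidHom n : G →* G).range := Nat.card_pos
  rw [← h2, mul_comm] at h1
  exact Nat.eq_of_mul_eq_mul_right hpos h1

/-- the `n`-torsion units of a commutative ring correspond to the `n`-th roots of `1`
(for `0 < n`). -/
def torsionUnitsEquiv (A : Type*) [CommRing A] {n : ℕ} (hn : 0 < n) :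
    (powMonoidHom n : Aˣ →* Aˣ).ker ≃ {u : A // u ^ n = 1} where
  toFun u := ⟨(u.1 : A), by
    have := u.2
    rw [MonoidHom.mem_ker, powMonoidHom_apply] at this
    rw [← Units.val_pow_eq_pow_val, this, Units.val_one]⟩
  invFun u := ⟨Units.ofPowEqOne u.1 n u.2 hn.ne', by
    rw [MonoidHom.mem_ker, powMonoidHom_apply]
    ext
    simp [u.2]⟩
  left_inv u := by
    ext
    simp
  right_inv u := by
    ext
    simp

open IsDedekindDomain HeightOneSpectrum Polynomial in
/-- **Index of `p`-th powers** in `(R ⧸ P ^ (p e₁ + 1))ˣ`. -/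
theorem index_pow_units {R : Type*} [CommRing R] [IsDedekindDomain R] (v : HeightOneSpectrum R)
    [Finite (R ⧸ v.asIdeal)] {p : ℕ} (hp : p.Prime) {ζ : R} (hζ : IsPrimitiveRoot ζ p) {e₁ : ℕ}
    (h1 : ζ - 1 ∈ v.asIdeal ^ e₁) (h2 : ζ - 1 ∉ v.asIdeal ^ (e₁ + 1)) :
    (powMonoidHom p : (R ⧸ v.asIdeal ^ (p * e₁ + 1))ˣ →* _).range.index =
      p * Nat.card (R ⧸ v.asIdeal) ^ ((p - 1) * e₁) := by
  haveI : Finite (R ⧸ v.asIdeal ^ (p * e₁ + 1)) := by
    have hq : Nat.card (R ⧸ v.asIdeal ^ (p * e₁ + 1)) = Nat.card (R ⧸ v.asIdeal) ^ (p * e₁ + 1) := by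
      have := cardQuot_pow_of_prime (P := v.asIdeal) v.ne_bot (i := p * e₁ + 1)
      simpa [Submodule.cardQuot_apply] using this
    have hpos : 0 < Nat.card (R ⧸ v.asIdeal ^ (p * e₁ + 1)) := by
      rw [hq]; exact pow_pos Nat.card_pos _
    exact (Nat.card_pos_iff.mp hpos).2
  rw [index_range_powMonoidHom, Nat.card_congr (torsionUnitsEquiv _ hp.pos),
    card_pow_eq_one v hp hζ h1 h2]

end Fermat.Agent.S14_helper12
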