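import Fermat.Agent.S14.SI.Defs
import Fermat.Agent.S14_helper12.TorsionCount

/-!
# T14 / SI-LC bridge (helper12): the reduction hom on units at `v`

`U_v := oneModPowSubgroup v 0` (units at `v`), `red n : U_v →* (𝓞 K ⧸ v ^ n)ˣ`, `a/b ↦ ā b̄⁻¹`,
surjective with kernel `oneModPowSubgroup v n`; `x ∈ U_v` is a local `p`-th power to precision `n`
iff `red n x` is a `p`-th power.
-/

set_option autoImplicit false

open NumberField IsDedekindDomain

namespace Fermat.Agent.S14_helper12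

open Fermat.Agent.S14.SI

variable {K : Type*} [Field K] [NumberField K] (v : Ideal (𝓞 K)) [hmax : v.IsMaximal]

/-- the unit of `𝓞 K ⧸ v ^ n` attached to `a ∉ v`. -/
noncomputable def qUnit (n : ℕ) (a : 𝓞 K) (ha : a ∉ v) : (𝓞 K ⧸ v ^ n)ˣ :=
  (Ideal.Quotient.isUnit_mk_pow_of_notMem (n := n) v ha).unit

@[simp] lemma qUnit_val (n : ℕ) (a : 𝓞 K) (ha : a ∉ v) :
    ((qUnit v n a ha : (𝓞 K ⧸ v ^ n)ˣ) : 𝓞 K ⧸ v ^ n) = Ideal.Quotient.mk (v ^ n) a := rfl

lemma qUnit_mul (n : ℕ) (a b : 𝓞 K) (ha : a ∉ v) (hb : b ∉ v) (hab : a * b ∉ v) :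
    qUnit v n (a * b) hab = qUnit v n a ha * qUnit v n b hb := by
  ext
  simp

lemma qUnit_eq_iff (n : ℕ) (a b : 𝓞 K) (ha : a ∉ v) (hb : b ∉ v) :
    qUnit v n a ha = qUnit v n b hb ↔ a - b ∈ v ^ n := by
  rw [← Units.val_inj, qUnit_val, qUnit_val, Ideal.Quotient.eq]

/-- cross-multiplication: two fractions representing the same `x`. -/
lemma qUnit_div_eq (n : ℕ) {x : K} {a b a' b' : 𝓞 K} (ha : a ∉ v) (hb : b ∉ v) (ha' : a' ∉ v)
    (hb' : b' ∉ v) (h : x * (b : K) = (a : K)) (h' : x * (b' : K) = (a' : K)) :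
    qUnit v n a ha * (qUnit v n b hb)⁻¹ = qUnit v n a' ha' * (qUnit v n b' hb')⁻¹ := by
  have hcross : a * b' = a' * b := by
    have hK : (a : K) * (b' : K) = (a' : K) * (b : K) := by
      rw [← h, ← h']
      ring
    exact_mod_cast hK
  rw [mul_inv_eq_iff_eq_mul, mul_assoc, mul_comm _ (qUnit v n b hb), ← mul_assoc,
    eq_mul_inv_iff_mul_eq]
  ext
  simp only [Units.val_mul, qUnit_val, ← map_mul, hcross]

/-- the reduction of a unit at `v` modulo `v ^ n`. -/
noncomputable def redFun (n : ℕ) (x : Kˣ) (hx : x ∈ oneModPowSubgroup v 0) : (𝓞 K ⧸ v ^ n)ˣ :=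
  have hx' : OneModPow v 0 x := hx
  qUnit v n hx'.choose hx'.choose_spec.choose_spec.1 *
    (qUnit v n hx'.choose_spec.choose hx'.choose_spec.choose_spec.2.1)⁻¹

lemma redFun_eq (n : ℕ) (x : Kˣ) (hx : x ∈ oneModPowSubgroup v 0) {a b : 𝓞 K} (ha : a ∉ v)
    (hb : b ∉ v) (h : (x : K) * (b : K) = (a : K)) :
    redFun v n x hx = qUnit v n a ha * (qUnit v n b hb)⁻¹ := by
  have hx' : OneModPow v 0 x := hx
  exact qUnit_div_eq v n _ _ ha hb hx'.choose_spec.choose_spec.2.2.2 h

/-- the reduction hom `U_v →* (𝓞 K ⧸ v ^ n)ˣ`. -/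
noncomputable def red (n : ℕ) : ↥(oneModPowSubgroup v 0) →* (𝓞 K ⧸ v ^ n)ˣ where
  toFun x := redFun v n x.1 x.2
  map_one' := by
    have h1 : (1 : 𝓞 K) ∉ v := fun h => hmax.ne_top ((Ideal.eq_top_iff_one _).2 h)
    rw [redFun_eq v n _ _ h1 h1 (by simp)]
    simp
  map_mul' := by
    rintro ⟨x, hx⟩ ⟨y, hy⟩
    obtain ⟨a, b, ha, hb, -, h⟩ := hx
    obtain ⟨a', b', ha', hb', -, h'⟩ := hy
    have hab : a * a' ∉ v := fun hh => (hmax.isPrime.mem_or_mem hh).elim ha ha'
    have hbb : b * b' ∉ v := fun hh => (hmax.isPrime.mem_or_mem hh).elim hb hb'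
    have hxy : ((x * y : Kˣ) : K) * ((b * b' : 𝓞 K) : K) = ((a * a' : 𝓞 K) : K) := by
      push_cast
      calc (x : K) * (y : K) * ((b : K) * (b' : K)) = ((x : K) * b) * ((y : K) * b') := by ring
        _ = (a : K) * (a' : K) := by rw [h, h']
    show redFun v n (x * y) _ = redFun v n x _ * redFun v n y _
    rw [redFun_eq v n (x * y) _ hab hbb hxy, redFun_eq v n x _ ha hb h,
      redFun_eq v n y _ ha' hb' h', qUnit_mul v n a a' ha ha', qUnit_mul v n b b' hb hb']
    rw [mul_inv]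
    exact mul_mul_mul_comm _ _ _ _

lemma red_apply (n : ℕ) (x : ↥(oneModPowSubgroup v 0)) {a b : 𝓞 K} (ha : a ∉ v) (hb : b ∉ v)
    (h : ((x : Kˣ) : K) * (b : K) = (a : K)) :
    red v n x = qUnit v n a ha * (qUnit v n b hb)⁻¹ :=
  redFun_eq v n x.1 x.2 ha hb h

/-- `red n x = 1 ↔ x ≡ 1 mod v ^ n`. -/
lemma red_eq_one_iff (n : ℕ) (x : ↥(oneModPowSubgroup v 0)) :
    red v n x = 1 ↔ OneModPow v n (x : Kˣ) := by
  constructor
  · intro h
    obtain ⟨a, b, ha, hb, -, hx⟩ := x.2
    rw [red_apply v n x ha hb hx, mul_inv_eq_one, qUnit_eq_iff] at h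
    exact ⟨a, b, ha, hb, h, hx⟩
  · rintro ⟨a, b, ha, hb, hab, hx⟩
    rw [red_apply v n x ha hb hx, mul_inv_eq_one, qUnit_eq_iff]
    exact hab

/-- `red n` is surjective. -/
lemma red_surjective (n : ℕ) : Function.Surjective (red v n) := by
  intro u
  obtain ⟨a, ha⟩ := Ideal.Quotient.mk_surjective (u : 𝓞 K ⧸ v ^ n)
  have h1 : (1 : 𝓞 K) ∉ v := fun h => hmax.ne_top ((Ideal.eq_top_iff_one _).2 h)
  by_cases hn : n = 0
  · subst hn
    refine ⟨1, ?_⟩
    have : Subsingleton (𝓞 K ⧸ v ^ 0) := by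
      rw [pow_zero, Ideal.one_eq_top]
      exact Ideal.Quotient.subsingleton_iff.mpr rfl
    exact Subsingleton.elim _ _
  have hav : a ∉ v := by
    rw [← Ideal.Quotient.isUnit_mk_pow_iff_notMem v hn, ha]
    exact u.isUnit
  have ha0 : (a : K) ≠ 0 := by
    intro h0
    have : a = 0 := RingOfIntegers.coe_injective (by simpa using h0)
    exact hav (this ▸ Ideal.zero_mem v)
  have hmem : OneModPow v 0 (Units.mk0 (a : K) ha0) := ⟨a, 1, hav, h1, by simp, by simp⟩
  refine ⟨⟨Units.mk0 (a : K) ha0, hmem⟩, ?_⟩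
  rw [red_apply v n _ hav h1 (by simp)]
  have h11 : qUnit v n 1 h1 = 1 := by
    ext
    simp
  rw [h11, inv_one, mul_one]
  ext
  simp [ha]


/-! ## units at `v` in terms of the `v`-adic valuation -/

variable (hv : v ≠ ⊥)

/-- `v` as a height-one prime. -/
def hos : HeightOneSpectrum (𝓞 K) := ⟨v, hmax.isPrime, hv⟩

open WithZero in
lemma oneModPow_zero_iff (x : Kˣ) :
    OneModPow v 0 x ↔ (hos v hv).valuation K (x : K) = 1 := by
  constructor
  · rintro ⟨a, b, ha, hb, -, h⟩
    have ha' : (hos v hv).valuation K (algebraMap (𝓞 K) K a) = 1 :=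
      (HeightOneSpectrum.valuation_eq_one_iff_notMem (hos v hv)).mpr ha
    have hb' : (hos v hv).valuation K (algebraMap (𝓞 K) K b) = 1 :=
      (HeightOneSpectrum.valuation_eq_one_iff_notMem (hos v hv)).mpr hb
    have := congrArg ((hos v hv).valuation K) h
    rw [map_mul] at this
    change _ * (hos v hv).valuation K (algebraMap (𝓞 K) K b) =
      (hos v hv).valuation K (algebraMap (𝓞 K) K a) at this
    rw [ha', hb', mul_one] at this
    exact this
  · intro h
    obtain ⟨a, ⟨b, hb⟩, hab⟩ :=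
      HeightOneSpectrum.exists_primeCompl_mul_eq_of_integer (hos v hv) (x : K) h.le
    have hb' : b ∉ v := hb
    refine ⟨a, b, ?_, hb', by simp, hab⟩
    have hb1 : (hos v hv).valuation K (algebraMap (𝓞 K) K b) = 1 :=
      (HeightOneSpectrum.valuation_eq_one_iff_notMem (hos v hv)).mpr hb'
    have := congrArg ((hos v hv).valuation K) hab
    rw [map_mul, h, one_mul] at this
    change (hos v hv).valuation K (algebraMap (𝓞 K) K b) = _ at this
    rw [hb1] at this
    exact (HeightOneSpectrum.valuation_eq_one_iff_notMem (hos v hv)).mp this.symm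

omit hmax in
lemma oneModPow_weaken {v : Ideal (𝓞 K)} {n : ℕ} {x : Kˣ} (h : OneModPow v n x) : OneModPow v 0 x := by
  obtain ⟨a, b, ha, hb, -, hx⟩ := h
  exact ⟨a, b, ha, hb, by simp, hx⟩

include hv in
/-- if `y ^ p` (`p ≠ 0`) is a unit at `v` so is `y`. -/
lemma oneModPow_zero_of_pow {p : ℕ} (hp : p ≠ 0) (y : Kˣ) (h : OneModPow v 0 (y ^ p)) :
    OneModPow v 0 y := by
  rw [oneModPow_zero_iff v hv] at h ⊢
  rw [Units.val_pow_eq_pow_val, map_pow] at h
  exact (pow_eq_one_iff.mp h).resolve_right hp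

include hv in
/-- **Local powers among the units**: `x ∈ U_v` is a local `p`-th power to precision `n` iff its
reduction mod `v ^ n` is a `p`-th power. -/
lemma mem_localPowSubgroupN_iff {p : ℕ} (hp : p ≠ 0) (n : ℕ) (x : ↥(oneModPowSubgroup v 0)) :
    (x : Kˣ) ∈ localPowSubgroupN p v n ↔ red v n x ∈ (powMonoidHom p : (𝓞 K ⧸ v ^ n)ˣ →* _).range := by
  constructor
  · rintro ⟨y, hy⟩
    have hw : OneModPow v 0 ((x : Kˣ) / y ^ p) := oneModPow_weaken hy
    have hyp : OneModPow v 0 (y ^ p) := by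
      have : y ^ p = (x : Kˣ) * ((x : Kˣ) / y ^ p)⁻¹ := by
        rw [inv_div, mul_div_cancel]
      rw [this]
      exact OneModPow.mul x.2 hw.inv
    have hy0 : OneModPow v 0 y := oneModPow_zero_of_pow v hv hp y hyp
    let y' : ↥(oneModPowSubgroup v 0) := ⟨y, hy0⟩
    let w' : ↥(oneModPowSubgroup v 0) := ⟨(x : Kˣ) / y ^ p, hw⟩
    have hx : x = y' ^ p * w' := by
      ext
      simp [y', w']
    have hw1 : red v n w' = 1 := (red_eq_one_iff v n w').mpr hy
    refine ⟨red v n y', ?_⟩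
    rw [powMonoidHom_apply, hx, map_mul, map_pow, hw1, mul_one]
  · rintro ⟨u, hu⟩
    obtain ⟨y, rfl⟩ := red_surjective v n u
    rw [powMonoidHom_apply, ← map_pow] at hu
    have h1 : red v n (x / y ^ p) = 1 := by
      rw [map_div, ← hu, div_self']
    have := (red_eq_one_iff v n (x / y ^ p)).mp h1
    exact ⟨(y : Kˣ), by simpa using this⟩


/-! ## the valuation part -/

open WithZero in
/-- the `v`-adic order `Kˣ →* Multiplicative ℤ` (`= log` of the valuation). -/
noncomputable def ordHom : Kˣ →* Multiplicative ℤ where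
  toFun x := Multiplicative.ofAdd (log ((hos v hv).valuation K (x : K)))
  map_one' := by simp
  map_mul' x y := by
    rw [Units.val_mul, map_mul, log_mul, ofAdd_add]
    · exact (Valuation.ne_zero_iff _).mpr x.ne_zero
    · exact (Valuation.ne_zero_iff _).mpr y.ne_zero

open WithZero in
lemma valuation_eq_exp_ordHom (x : Kˣ) :
    (hos v hv).valuation K (x : K) = exp (Multiplicative.toAdd (ordHom v hv x)) := by
  simp only [ordHom, MonoidHom.coe_mk, OneHom.coe_mk, toAdd_ofAdd]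
  rw [exp_log]
  exact (Valuation.ne_zero_iff _).mpr x.ne_zero

/-- the order mod `p`. -/
noncomputable def ordModHom (p : ℕ) : Kˣ →* Multiplicative (ZMod p) :=
  (AddMonoidHom.toMultiplicative (Int.castAddHom (ZMod p))).comp (ordHom v hv)

lemma ordModHom_eq_one_iff (p : ℕ) (x : Kˣ) :
    ordModHom v hv p x = 1 ↔ (p : ℤ) ∣ Multiplicative.toAdd (ordHom v hv x) := by
  simp only [ordModHom, MonoidHom.coe_comp, Function.comp_apply, AddMonoidHom.toMultiplicative_apply_apply,
    Int.coe_castAddHom]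
  rw [← ofAdd_zero, Multiplicative.ofAdd.apply_eq_iff_eq, ZMod.intCast_zmod_eq_zero_iff_dvd]

open WithZero in
lemma exists_uniformizer_unit : ∃ π : Kˣ, ordHom v hv π = Multiplicative.ofAdd (-1 : ℤ) := by
  obtain ⟨π, hπ⟩ := (hos v hv).valuation_exists_uniformizer K
  have hπ0 : π ≠ 0 := by
    rintro rfl
    rw [map_zero] at hπ
    exact exp_ne_zero hπ.symm
  refine ⟨Units.mk0 π hπ0, ?_⟩
  simp only [ordHom, MonoidHom.coe_mk, OneHom.coe_mk, Units.val_mk0, hπ, log_exp]

lemma ordModHom_surjective (p : ℕ) : Function.Surjective (ordModHom v hv p) := by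
  obtain ⟨π, hπ⟩ := exists_uniformizer_unit v hv
  intro z
  obtain ⟨k, hk⟩ := ZMod.intCast_surjective (Multiplicative.toAdd z)
  refine ⟨π ^ (-k), ?_⟩
  have h : ∀ x, ordModHom v hv p x =
      Multiplicative.ofAdd ((Multiplicative.toAdd (ordHom v hv x) : ℤ) : ZMod p) := fun x => rfl
  have hk' : Multiplicative.toAdd (ordHom v hv (π ^ (-k))) = k := by
    rw [map_zpow, hπ, ← ofAdd_zsmul]
    simp
  rw [h, hk', hk]
  rfl

open WithZero in
/-- the kernel of the order mod `p` is `U_v ⊔ (local p-th powers)`. -/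
lemma ker_ordModHom {p : ℕ} (hp : p ≠ 0) (n : ℕ) :
    (ordModHom v hv p).ker = oneModPowSubgroup v 0 ⊔ localPowSubgroupN p v n := by
  apply le_antisymm
  · intro x hx
    rw [MonoidHom.mem_ker, ordModHom_eq_one_iff] at hx
    obtain ⟨m, hm⟩ := hx
    obtain ⟨π, hπ⟩ := exists_uniformizer_unit v hv
    set y : Kˣ := π ^ (-m) with hy
    have hyord : Multiplicative.toAdd (ordHom v hv y) = m := by
      rw [hy, map_zpow, hπ, ← ofAdd_zsmul]
      simp
    have hu : x / y ^ p ∈ oneModPowSubgroup v 0 := by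
      show OneModPow v 0 (x / y ^ p)
      rw [oneModPow_zero_iff v hv, valuation_eq_exp_ordHom v hv, map_div, map_pow, toAdd_div,
        toAdd_pow, hm, hyord]
      simp
    have hpow : y ^ p ∈ localPowSubgroupN p v n :=
      ⟨y, by rw [div_self']; exact oneModPow_one v n⟩
    have : x = (x / y ^ p) * y ^ p := by rw [div_mul_cancel]
    rw [this]
    exact Subgroup.mul_mem_sup hu hpow
  · rw [sup_le_iff]
    constructor
    · intro x hx
      rw [MonoidHom.mem_ker, ordModHom_eq_one_iff]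
      have h1 : (hos v hv).valuation K (x : K) = 1 := (oneModPow_zero_iff v hv x).mp hx
      rw [valuation_eq_exp_ordHom v hv, ← exp_zero, exp_inj] at h1
      rw [h1]
      exact dvd_zero _
    · rintro x ⟨y, hy⟩
      rw [MonoidHom.mem_ker, ordModHom_eq_one_iff]
      have h1 : (hos v hv).valuation K ((x / y ^ p : Kˣ) : K) = 1 :=
        (oneModPow_zero_iff v hv _).mp (oneModPow_weaken hy)
      rw [valuation_eq_exp_ordHom v hv, ← exp_zero, exp_inj, map_div, map_pow, toAdd_div,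
        toAdd_pow] at h1
      refine ⟨Multiplicative.toAdd (ordHom v hv y), ?_⟩
      have : Multiplicative.toAdd (ordHom v hv x) =
          p • Multiplicative.toAdd (ordHom v hv y) := by linarith
      rw [this]
      simp

include hv in
/-- **Local count, general precision**: `|Kˣ / (local p-th powers to precision n)| =
p * |A/A^p|`, `A = (𝓞 K ⧸ v ^ n)ˣ`. -/
theorem card_quotient_localPowSubgroupN {p : ℕ} [hp : Fact p.Prime] (n : ℕ) :
    Nat.card (Kˣ ⧸ localPowSubgroupN p v n) =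
      p * (powMonoidHom p : (𝓞 K ⧸ v ^ n)ˣ →* _).range.index := by
  have hp0 : p ≠ 0 := hp.out.ne_zero
  set H := localPowSubgroupN p v n
  set U := oneModPowSubgroup v 0
  rw [← Subgroup.index_eq_card, ← Subgroup.relIndex_mul_index (le_sup_right : H ≤ U ⊔ H),
    Subgroup.relIndex_sup_right, ← ker_ordModHom v hv hp0 n, Subgroup.index_ker,
    MonoidHom.range_eq_top.mpr (ordModHom_surjective v hv p), mul_comm]
  congr 1
  · rw [Nat.card_congr Subgroup.topEquiv.toEquiv]
    show Nat.card (ZMod p) = p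
    rw [Nat.card_eq_fintype_card, ZMod.card]
  · have : H.subgroupOf U = ((powMonoidHom p : (𝓞 K ⧸ v ^ n)ˣ →* _).range).comap (red v n) := by
      ext x
      rw [Subgroup.mem_subgroupOf, Subgroup.mem_comap]
      exact mem_localPowSubgroupN_iff v hv hp0 n x
    show (H.subgroupOf U).index = _
    rw [this, Subgroup.index_comap_of_surjective _ (red_surjective v n)]

end Fermat.Agent.S14_helper12
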