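import Fermat.Agent.S14_helper12.LocalBridge

/-!
# T14 / SI-LC (helper12): the local count in the exact shape of `SI/LocalCount.lean`

`|Kˣ / (local p-th powers at v)| = p² · N(v)^(ord_v p)`.
-/

set_option autoImplicit false

open NumberField IsDedekindDomain

namespace Fermat.Agent.S14_helper12

open Fermat.Agent.S14.SI

variable {K : Type*} [Field K] [NumberField K]

/-- `ord_v(p) = (p - 1) ord_v(ζ - 1)`, and `ζ - 1` has exact order `e₁` at `v`. -/
lemma ordP_eq {p : ℕ} [hp : Fact p.Prime] {ζ : K} (hζ : IsPrimitiveRoot ζ p)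
    (v : Ideal (𝓞 K)) [hprime : v.IsPrime] (hv : v ≠ ⊥) :
    ∃ e₁ : ℕ, hζ.toInteger - 1 ∈ v ^ e₁ ∧ hζ.toInteger - 1 ∉ v ^ (e₁ + 1) ∧
      ordP p v = (p - 1) * e₁ := by
  have hζ' := hζ.toInteger_isPrimitiveRoot
  have hne : hζ.toInteger - 1 ≠ 0 := sub_ne_zero.mpr (hζ'.ne_one hp.out.one_lt)
  have hspan : Ideal.span {hζ.toInteger - 1} ≠ 0 := by
    rw [Ne, Ideal.zero_eq_bot, Ideal.span_singleton_eq_bot]
    exact hne
  have hvprime : Prime v := Ideal.prime_of_isPrime hv hprime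
  have hfin : FiniteMultiplicity v (Ideal.span {hζ.toInteger - 1}) :=
    FiniteMultiplicity.of_not_isUnit hvprime.not_unit hspan
  refine ⟨multiplicity v (Ideal.span {hζ.toInteger - 1}), ?_, ?_, ?_⟩
  · rw [← Ideal.dvd_span_singleton]
    exact pow_multiplicity_dvd _ _
  · rw [← Ideal.dvd_span_singleton]
    exact hfin.not_pow_dvd_of_multiplicity_lt (Nat.lt_succ_self _)
  · have hassoc := IsCyclotomicExtension.Rat.associated_zeta_sub_one_pow_prime p hζ
    have : Ideal.span {(p : 𝓞 K)} = Ideal.span {hζ.toInteger - 1} ^ (p - 1) := by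
      rw [Ideal.span_singleton_pow]
      exact (Ideal.span_singleton_eq_span_singleton.mpr hassoc).symm
    rw [ordP, this, hfin.multiplicity_pow hvprime]

/-- **SI-LC**, in the exact shape of `Fermat.Agent.S14.SI.card_quotient_localPowSubgroup`. -/
theorem card_quotient_localPowSubgroup' {p : ℕ}
    (hp : p.Prime) (ζ : K) (hζ : IsPrimitiveRoot ζ p)
    (v : Ideal (𝓞 K)) [hprime : v.IsPrime] (hv : v ≠ ⊥) :
    Nat.card (Kˣ ⧸ localPowSubgroup p v) = p ^ 2 * (Ideal.absNorm v) ^ ordP p v := by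
  have : Fact p.Prime := ⟨hp⟩
  have hmax : v.IsMaximal := hprime.isMaximal hv
  obtain ⟨e₁, h1, h2, hord⟩ := ordP_eq hζ v hv
  have hp1 : 0 < p - 1 := Nat.sub_pos_of_lt hp.one_lt
  have hprec : prec p v = p * e₁ + 1 := by
    rw [prec, hord]
    congr 1
    have : p * ((p - 1) * e₁) = p * e₁ * (p - 1) := by ring
    rw [this, Nat.mul_div_cancel _ hp1]
  have : Finite (𝓞 K ⧸ (hos v hv).asIdeal) := Ideal.finiteQuotientOfFreeOfNeBot v hv
  have hidx := index_pow_units (hos v hv) hp hζ.toInteger_isPrimitiveRoot (e₁ := e₁) h1 h2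
  have hcard := card_quotient_localPowSubgroupN v hv (p := p) (p * e₁ + 1)
  have hq : Nat.card (𝓞 K ⧸ v) = Ideal.absNorm v := by
    rw [Ideal.absNorm_apply, Submodule.cardQuot_apply]
  have hidx' : (powMonoidHom p : (𝓞 K ⧸ v ^ (p * e₁ + 1))ˣ →* _).range.index =
      p * Nat.card (𝓞 K ⧸ v) ^ ((p - 1) * e₁) := hidx
  rw [localPowSubgroup, hprec, hcard, hidx', hq, hord]
  ring

end Fermat.Agent.S14_helper12
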